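import Mathlib

/-!
# S23, converse step (function level), independent implementation by seat 908

If `g`, `h` are modular forms on `Γ ≤ SL(2, ℤ)` of weights `k + w`, `w`, with `h ≠ 0`, and
`g ^ n + ∑ i ∈ Icc 1 n, e i * g ^ (n - i) * h ^ i = 0` for level one cusp forms `e i` of
weight `k * i`, then `g / h` is a cusp form of weight `k` on `Γ`.
-/

open UpperHalfPlane Complex Filter Topology
open scoped Manifold MatrixGroups ModularForm

namespace Fermat.Agent.S23.H908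

/-! ### Root bounds -/

/-- Cauchy-type root bound for a monic polynomial equation. -/
theorem norm_le_max_of_monic_eq {n : ℕ} (c : ℕ → ℂ) (x : ℂ)
    (h : x ^ n + ∑ i ∈ Finset.Icc 1 n, c i * x ^ (n - i) = 0) :
    ‖x‖ ≤ max 1 (∑ i ∈ Finset.Icc 1 n, ‖c i‖) := by
  by_cases hx : ‖x‖ ≤ 1
  · exact le_max_of_le_left hx
  rw [not_le] at hx
  apply le_max_of_le_right
  have hx0 : 0 < ‖x‖ := lt_trans one_pos hx
  rcases Nat.eq_zero_or_pos n with hn | hn
  · subst hn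
    simp at h
  have h1 : x ^ n = - ∑ i ∈ Finset.Icc 1 n, c i * x ^ (n - i) := eq_neg_of_add_eq_zero_left h
  have h2 : ‖x‖ ^ n ≤ (∑ i ∈ Finset.Icc 1 n, ‖c i‖) * ‖x‖ ^ (n - 1) := by
    calc ‖x‖ ^ n = ‖x ^ n‖ := (norm_pow x n).symm
      _ = ‖∑ i ∈ Finset.Icc 1 n, c i * x ^ (n - i)‖ := by rw [h1, norm_neg]
      _ ≤ ∑ i ∈ Finset.Icc 1 n, ‖c i * x ^ (n - i)‖ := norm_sum_le _ _
      _ ≤ ∑ i ∈ Finset.Icc 1 n, ‖c i‖ * ‖x‖ ^ (n - 1) := by
          apply Finset.sum_le_sum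
          intro i hi
          rw [norm_mul, norm_pow]
          apply mul_le_mul_of_nonneg_left _ (norm_nonneg _)
          apply pow_le_pow_right₀ hx.le
          have := (Finset.mem_Icc.mp hi).1
          omega
      _ = (∑ i ∈ Finset.Icc 1 n, ‖c i‖) * ‖x‖ ^ (n - 1) := by rw [Finset.sum_mul]
  have h3 : ‖x‖ ^ n = ‖x‖ * ‖x‖ ^ (n - 1) := by
    rw [← pow_succ']
    congr 1
    omega
  rw [h3] at h2
  exact le_of_mul_le_mul_right h2 (pow_pos hx0 _)

/-- If the coefficients of a monic equation are small, its roots are small. -/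
theorem norm_pow_le_of_monic_eq {n : ℕ} (c : ℕ → ℂ) (x : ℂ)
    (h : x ^ n + ∑ i ∈ Finset.Icc 1 n, c i * x ^ (n - i) = 0)
    (hc : ∑ i ∈ Finset.Icc 1 n, ‖c i‖ ≤ 1) :
    ‖x‖ ^ n ≤ ∑ i ∈ Finset.Icc 1 n, ‖c i‖ := by
  have hx : ‖x‖ ≤ 1 := by
    have := norm_le_max_of_monic_eq c x h
    rwa [max_eq_left hc] at this
  have h1 : x ^ n = - ∑ i ∈ Finset.Icc 1 n, c i * x ^ (n - i) := eq_neg_of_add_eq_zero_left h
  calc ‖x‖ ^ n = ‖x ^ n‖ := (norm_pow x n).symm
    _ = ‖∑ i ∈ Finset.Icc 1 n, c i * x ^ (n - i)‖ := by rw [h1, norm_neg]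
    _ ≤ ∑ i ∈ Finset.Icc 1 n, ‖c i * x ^ (n - i)‖ := norm_sum_le _ _
    _ ≤ ∑ i ∈ Finset.Icc 1 n, ‖c i‖ := by
        apply Finset.sum_le_sum
        intro i _
        rw [norm_mul, norm_pow]
        exact mul_le_of_le_one_right (norm_nonneg _) (pow_le_one₀ (norm_nonneg _) hx)

/-! ### The quotient on an open preconnected subset of `ℂ` -/

/-- Zeros of a not identically zero holomorphic function on a preconnected open set are
isolated. -/
theorem eventually_ne_zero_of_differentiableOn {U : Set ℂ} (hU : IsOpen U)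
    (hUc : IsPreconnected U) {H : ℂ → ℂ} (hH : DifferentiableOn ℂ H U)
    (hH0 : ∃ z ∈ U, H z ≠ 0) {z₀ : ℂ} (hz₀ : z₀ ∈ U) :
    ∀ᶠ z in 𝓝[≠] z₀, H z ≠ 0 := by
  have hHa : AnalyticOnNhd ℂ H U := hH.analyticOnNhd hU
  rcases (hHa z₀ hz₀).eventually_eq_zero_or_eventually_ne_zero with h | h
  · exfalso
    obtain ⟨z, hz, hz0⟩ := hH0
    exact hz0 (hHa.eqOn_zero_of_preconnected_of_eventuallyEq_zero hUc hz₀ h hz)
  · exact h

/-- The quotient `G / H`, with the value at each point replaced by the limit of `G / H` at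
that point. -/
noncomputable def quotLim (G H : ℂ → ℂ) (z : ℂ) : ℂ :=
  limUnder (𝓝[≠] z) (fun w => G w / H w)

theorem quotLim_eq_of_ne {U : Set ℂ} (hU : IsOpen U) {G H : ℂ → ℂ}
    (hG : DifferentiableOn ℂ G U) (hH : DifferentiableOn ℂ H U) {z : ℂ} (hz : z ∈ U)
    (hHz : H z ≠ 0) : quotLim G H z = G z / H z := by
  unfold quotLim
  apply Tendsto.limUnder_eq
  apply tendsto_nhdsWithin_of_tendsto_nhds
  have hGc : ContinuousAt G z := (hG.differentiableAt (hU.mem_nhds hz)).continuousAt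
  have hHc : ContinuousAt H z := (hH.differentiableAt (hU.mem_nhds hz)).continuousAt
  exact (hGc.div hHc hHz).tendsto

theorem quotLim_differentiableOn {U : Set ℂ} (hU : IsOpen U) (hUc : IsPreconnected U)
    {G H : ℂ → ℂ} (hG : DifferentiableOn ℂ G U) (hH : DifferentiableOn ℂ H U)
    (hH0 : ∃ z ∈ U, H z ≠ 0) {n : ℕ} (E : ℕ → ℂ → ℂ)
    (hE : ∀ i ∈ Finset.Icc 1 n, ContinuousOn (E i) U)
    (heq : ∀ z ∈ U, G z ^ n + ∑ i ∈ Finset.Icc 1 n, E i z * G z ^ (n - i) * H z ^ i = 0) :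
    DifferentiableOn ℂ (quotLim G H) U := by
  intro z₀ hz₀
  apply DifferentiableAt.differentiableWithinAt
  have h1 : ∀ᶠ z in 𝓝 z₀, z ∈ U := hU.mem_nhds hz₀
  have h2 : ∀ᶠ z in 𝓝 z₀, z ≠ z₀ → H z ≠ 0 :=
    eventually_nhdsWithin_iff.mp (eventually_ne_zero_of_differentiableOn hU hUc hH hH0 hz₀)
  have h3 : ∀ᶠ z in 𝓝 z₀, ∑ i ∈ Finset.Icc 1 n, ‖E i z‖
      < ∑ i ∈ Finset.Icc 1 n, ‖E i z₀‖ + 1 := by
    have hc : ContinuousAt (fun z => ∑ i ∈ Finset.Icc 1 n, ‖E i z‖) z₀ := by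
      apply tendsto_finsetSum
      intro i hi
      exact ((hE i hi).continuousAt (hU.mem_nhds hz₀)).norm
    exact hc.eventually_lt continuousAt_const (by simp)
  obtain ⟨s, hs, hso, hzs⟩ := eventually_nhds_iff.mp (h1.and (h2.and h3))
  set B : ℝ := ∑ i ∈ Finset.Icc 1 n, ‖E i z₀‖ + 1 with hB
  have hsU : s ⊆ U := fun z hz => (hs z hz).1
  have hQd : DifferentiableOn ℂ (fun w => G w / H w) (s \ {z₀}) := by
    apply DifferentiableOn.div (hG.mono (fun z hz => hsU hz.1)) (hH.mono (fun z hz => hsU hz.1))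
    intro z hz
    exact (hs z hz.1).2.1 hz.2
  have hQb : BddAbove (norm ∘ (fun w => G w / H w) '' (s \ {z₀})) := by
    refine ⟨max 1 B, ?_⟩
    rintro _ ⟨z, hz, rfl⟩
    have hHz : H z ≠ 0 := (hs z hz.1).2.1 hz.2
    have hroot : (G z / H z) ^ n + ∑ i ∈ Finset.Icc 1 n, E i z * (G z / H z) ^ (n - i) = 0 := by
      have := heq z (hsU hz.1)
      have hHn : H z ^ n ≠ 0 := pow_ne_zero _ hHz
      apply mul_right_cancel₀ hHn
      rw [zero_mul, add_mul, Finset.sum_mul, ← this]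
      congr 1
      · rw [div_pow, div_mul_cancel₀ _ hHn]
      · apply Finset.sum_congr rfl
        intro i hi
        have hi' := (Finset.mem_Icc.mp hi).2
        have : H z ^ n = H z ^ (n - i) * H z ^ i := by
          rw [← pow_add]; congr 1; omega
        rw [this, div_pow]
        field_simp
    have := norm_le_max_of_monic_eq (fun i => E i z) (G z / H z) hroot
    simp only [Function.comp_apply]
    exact this.trans (max_le_max le_rfl (hs z hz.1).2.2.le)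
  have hrem := Complex.differentiableOn_update_limUnder_of_bddAbove (hso.mem_nhds hzs) hQd hQb
  have hev : quotLim G H =ᶠ[𝓝 z₀]
      Function.update (fun w => G w / H w) z₀ (limUnder (𝓝[≠] z₀) (fun w => G w / H w)) := by
    filter_upwards [hso.mem_nhds hzs] with z hz
    by_cases hzz : z = z₀
    · subst hzz
      simp [quotLim]
    · rw [Function.update_of_ne hzz]
      exact quotLim_eq_of_ne hU hG hH (hsU hz) ((hs z hz).2.1 hzz)
  exact hev.differentiableAt_iff.mpr (hrem.differentiableAt (hso.mem_nhds hzs))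

theorem quotLim_mul_eq {U : Set ℂ} (hU : IsOpen U)
    {G H : ℂ → ℂ} (hG : DifferentiableOn ℂ G U) (hH : DifferentiableOn ℂ H U)
    {n : ℕ} (E : ℕ → ℂ → ℂ)
    (heq : ∀ z ∈ U, G z ^ n + ∑ i ∈ Finset.Icc 1 n, E i z * G z ^ (n - i) * H z ^ i = 0)
    {z : ℂ} (hz : z ∈ U) : quotLim G H z * H z = G z := by
  by_cases hHz : H z = 0
  · rw [hHz, mul_zero]
    have h := heq z hz
    have hs : ∑ i ∈ Finset.Icc 1 n, E i z * G z ^ (n - i) * H z ^ i = 0 := by
      apply Finset.sum_eq_zero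
      intro i hi
      have hi1 := (Finset.mem_Icc.mp hi).1
      rw [hHz, zero_pow (by omega), mul_zero]
    rw [hs, add_zero] at h
    exact (pow_eq_zero_iff (by
      rintro rfl
      simp at h) |>.mp h).symm
  · rw [quotLim_eq_of_ne hU hG hH hz hHz, div_mul_cancel₀ _ hHz]

theorem quotLim_monic_eq {U : Set ℂ} (hU : IsOpen U) (hUc : IsPreconnected U)
    {G H : ℂ → ℂ} (hG : DifferentiableOn ℂ G U) (hH : DifferentiableOn ℂ H U)
    (hH0 : ∃ z ∈ U, H z ≠ 0) {n : ℕ} (E : ℕ → ℂ → ℂ)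
    (hE : ∀ i ∈ Finset.Icc 1 n, ContinuousOn (E i) U)
    (heq : ∀ z ∈ U, G z ^ n + ∑ i ∈ Finset.Icc 1 n, E i z * G z ^ (n - i) * H z ^ i = 0)
    {z₀ : ℂ} (hz₀ : z₀ ∈ U) :
    quotLim G H z₀ ^ n + ∑ i ∈ Finset.Icc 1 n, E i z₀ * quotLim G H z₀ ^ (n - i) = 0 := by
  set F := quotLim G H with hF
  have hFd : DifferentiableOn ℂ F U := quotLim_differentiableOn hU hUc hG hH hH0 E hE heq
  set P : ℂ → ℂ := fun z => F z ^ n + ∑ i ∈ Finset.Icc 1 n, E i z * F z ^ (n - i) with hP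
  have hPH : ∀ z ∈ U, H z ≠ 0 → P z = 0 := by
    intro z hz hHz
    have hHn : H z ^ n ≠ 0 := pow_ne_zero _ hHz
    apply mul_right_cancel₀ hHn
    have hFH : F z * H z = G z := quotLim_mul_eq hU hG hH E heq hz
    rw [zero_mul, hP, add_mul, Finset.sum_mul, ← heq z hz, ← hFH]
    congr 1
    · rw [mul_pow]
    · apply Finset.sum_congr rfl
      intro i hi
      have hi' := (Finset.mem_Icc.mp hi).2
      have : H z ^ n = H z ^ (n - i) * H z ^ i := by
        rw [← pow_add]; congr 1; omega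
      rw [this, mul_pow]
      ring
  have hPc : ContinuousAt P z₀ := by
    have hFc : ContinuousAt F z₀ := (hFd.differentiableAt (hU.mem_nhds hz₀)).continuousAt
    apply ContinuousAt.add (hFc.pow n)
    apply tendsto_finsetSum
    intro i hi
    exact ((hE i hi).continuousAt (hU.mem_nhds hz₀)).mul (hFc.pow _)
  have ht1 : Tendsto P (𝓝[≠] z₀) (𝓝 (P z₀)) := tendsto_nhdsWithin_of_tendsto_nhds hPc.tendsto
  have ht2 : Tendsto P (𝓝[≠] z₀) (𝓝 0) := by
    apply tendsto_const_nhds.congr'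
    have h2 := eventually_ne_zero_of_differentiableOn hU hUc hH hH0 hz₀
    have h1 : ∀ᶠ z in 𝓝[≠] z₀, z ∈ U := mem_nhdsWithin_of_mem_nhds (hU.mem_nhds hz₀)
    filter_upwards [h1, h2] with z hz hHz
    exact (hPH z hz hHz).symm
  exact tendsto_nhds_unique ht1 ht2

/-! ### The quotient on the upper half plane -/

/-- The holomorphic quotient `g / h` on the upper half plane (junk unless `g / h` is locally
bounded). -/
noncomputable def quotFun (g h : ℍ → ℂ) : ℍ → ℂ :=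
  fun τ => quotLim (g ∘ ofComplex) (h ∘ ofComplex) (τ : ℂ)

theorem uhp_isPreconnected : IsPreconnected upperHalfPlaneSet :=
  (convex_halfSpace_im_gt 0).isPreconnected

theorem exists_ne_zero_comp {h : ℍ → ℂ} (hh0 : h ≠ 0) :
    ∃ z ∈ upperHalfPlaneSet, (h ∘ ofComplex) z ≠ 0 := by
  obtain ⟨τ, hτ⟩ := Function.ne_iff.mp hh0
  exact ⟨(τ : ℂ), τ.im_pos, by simpa using hτ⟩

/-- **Converse, function level (CONV0)**: if `g`, `h` are holomorphic on `ℍ`, `h ≠ 0`, and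
`g ^ n + ∑ i ∈ Icc 1 n, e i * g ^ (n - i) * h ^ i = 0` with holomorphic `e i`, then
`F := quotFun g h` is holomorphic, `F * h = g` and `F ^ n + ∑ i ∈ Icc 1 n, e i * F ^ (n - i) = 0`. -/
theorem quotFun_spec {g h : ℍ → ℂ} {n : ℕ} {e : ℕ → ℍ → ℂ}
    (hg : MDiff g) (hh : MDiff h) (hh0 : h ≠ 0)
    (he : ∀ i ∈ Finset.Icc 1 n, MDiff (e i))
    (heq : ∀ τ, g τ ^ n + ∑ i ∈ Finset.Icc 1 n, e i τ * g τ ^ (n - i) * h τ ^ i = 0) :
    MDiff (quotFun g h) ∧ (∀ τ, quotFun g h τ * h τ = g τ) ∧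
      ∀ τ, quotFun g h τ ^ n + ∑ i ∈ Finset.Icc 1 n, e i τ * quotFun g h τ ^ (n - i) = 0 := by
  have hG := UpperHalfPlane.mdifferentiable_iff.mp hg
  have hH := UpperHalfPlane.mdifferentiable_iff.mp hh
  have hE : ∀ i ∈ Finset.Icc 1 n,
      ContinuousOn ((fun i => e i ∘ ofComplex) i) upperHalfPlaneSet :=
    fun i hi => (UpperHalfPlane.mdifferentiable_iff.mp (he i hi)).continuousOn
  have heq' : ∀ z ∈ upperHalfPlaneSet, (g ∘ ofComplex) z ^ n +
      ∑ i ∈ Finset.Icc 1 n, (fun i => e i ∘ ofComplex) i z * (g ∘ ofComplex) z ^ (n - i) *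
        (h ∘ ofComplex) z ^ i = 0 := by
    intro z _
    exact heq (ofComplex z)
  refine ⟨?_, ?_, ?_⟩
  · rw [UpperHalfPlane.mdifferentiable_iff]
    refine (quotLim_differentiableOn isOpen_upperHalfPlaneSet uhp_isPreconnected hG hH
      (exists_ne_zero_comp hh0) _ hE heq').congr ?_
    intro z hz
    simp only [Function.comp_apply, quotFun]
    rw [ofComplex_apply_of_im_pos hz]
  · intro τ
    have := quotLim_mul_eq isOpen_upperHalfPlaneSet hG hH _ heq' (z := (τ : ℂ)) τ.im_pos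
    simpa [quotFun] using this
  · intro τ
    have := quotLim_monic_eq isOpen_upperHalfPlaneSet uhp_isPreconnected hG hH
      (exists_ne_zero_comp hh0) _ hE heq' (z₀ := (τ : ℂ)) τ.im_pos
    simpa [quotFun] using this

/-! ### Invariance and behaviour at the cusps -/

/-- **Invariance transfer (CONV1)**: if `F * h = g` with `g`, `h` invariant of weights
`k + w`, `w` under `γ ∈ SL(2, ℤ)`, then `F` is invariant of weight `k` under `γ`. -/
theorem slash_eq_of_mul_eq {F g h : ℍ → ℂ} (hF : MDiff F) (hh : MDiff h) (hh0 : h ≠ 0)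
    (hFh : ∀ τ, F τ * h τ = g τ) {k w kg : ℤ} (hkg : kg = k + w) (γ : SL(2, ℤ))
    (hgγ : g ∣[kg] γ = g) (hhγ : h ∣[w] γ = h) : F ∣[k] γ = F := by
  have hFh' : F * h = g := funext hFh
  have h1 : (F ∣[k] γ) * h = F * h := by
    calc (F ∣[k] γ) * h = (F ∣[k] γ) * (h ∣[w] γ) := by rw [hhγ]
      _ = (F * h) ∣[k + w] γ := (ModularForm.mul_slash_SL2 k w γ F h).symm
      _ = F * h := by rw [hFh', ← hkg, hgγ]
  have h2 : (F ∣[k] γ - F) * h = 0 := by rw [sub_mul, h1, sub_self]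
  have hd : MDiff (F ∣[k] γ - F) := (hF.slash k _).sub hF
  rcases (UpperHalfPlane.mul_eq_zero_iff hd hh).mp h2 with h3 | h3
  · exact sub_eq_zero.mp h3
  · exact absurd h3 hh0

/-- The slashed function `F ∣[k] γ` satisfies the same monic equation as `F` when the
coefficients `e i` are `γ`-invariant of weight `k * i`. -/
theorem slash_monic_eq {F : ℍ → ℂ} {n : ℕ} {e : ℕ → ℍ → ℂ} {k : ℤ} (γ : SL(2, ℤ))
    (heγ : ∀ i ∈ Finset.Icc 1 n, (e i) ∣[k * i] γ = e i)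
    (heq : ∀ τ, F τ ^ n + ∑ i ∈ Finset.Icc 1 n, e i τ * F τ ^ (n - i) = 0) (τ : ℍ) :
    (F ∣[k] γ) τ ^ n + ∑ i ∈ Finset.Icc 1 n, e i τ * (F ∣[k] γ) τ ^ (n - i) = 0 := by
  set u : ℂ := denom (Matrix.SpecialLinearGroup.mapGL ℝ γ) τ ^ (-k) with hu
  have hFγ : (F ∣[k] γ) τ = F (γ • τ) * u := by
    rw [ModularForm.SL_slash_apply]; rfl
  have heγ' : ∀ i ∈ Finset.Icc 1 n, e i τ = e i (γ • τ) * u ^ i := by
    intro i hi
    have := congrFun (heγ i hi) τ
    rw [ModularForm.SL_slash_apply] at this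
    rw [← this, hu, ← zpow_natCast, ← zpow_mul]
    congr 2
    ring
  have h0 := heq (γ • τ)
  have : (F ∣[k] γ) τ ^ n + ∑ i ∈ Finset.Icc 1 n, e i τ * (F ∣[k] γ) τ ^ (n - i)
      = u ^ n * (F (γ • τ) ^ n + ∑ i ∈ Finset.Icc 1 n, e i (γ • τ) * F (γ • τ) ^ (n - i)) := by
    rw [mul_add, Finset.mul_sum, hFγ]
    congr 1
    · ring
    · apply Finset.sum_congr rfl
      intro i hi
      have hi' := (Finset.mem_Icc.mp hi).2
      rw [heγ' i hi]
      have : u ^ n = u ^ i * u ^ (n - i) := by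
        rw [← pow_add]; congr 1; omega
      rw [this, mul_pow]
      ring
  rw [this, h0, mul_zero]

/-- **(CONV2)** A function satisfying a monic equation whose coefficients vanish at `i∞`
vanishes at `i∞`. -/
theorem isZeroAtImInfty_of_monic_eq {F : ℍ → ℂ} {n : ℕ} {e : ℕ → ℍ → ℂ}
    (he : ∀ i ∈ Finset.Icc 1 n, IsZeroAtImInfty (e i))
    (heq : ∀ τ, F τ ^ n + ∑ i ∈ Finset.Icc 1 n, e i τ * F τ ^ (n - i) = 0) :
    IsZeroAtImInfty F := by
  rcases Nat.eq_zero_or_pos n with hn | hn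
  · subst hn
    exfalso
    have := heq UpperHalfPlane.I
    simp at this
  have hS : Tendsto (fun τ => ∑ i ∈ Finset.Icc 1 n, ‖e i τ‖) atImInfty (𝓝 0) := by
    have : (0 : ℝ) = ∑ i ∈ Finset.Icc 1 n, (0 : ℝ) := by simp
    rw [this]
    apply tendsto_finsetSum
    intro i hi
    exact tendsto_zero_iff_norm_tendsto_zero.mp (he i hi)
  unfold IsZeroAtImInfty ZeroAtFilter
  rw [Metric.tendsto_nhds]
  intro ε hε
  have hε' : 0 < min 1 (ε / 2) ^ n := pow_pos (lt_min one_pos (half_pos hε)) n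
  have hev := (tendsto_order.mp hS).2 _ hε'
  filter_upwards [hev] with τ hτ
  rw [dist_zero_right]
  have hS1 : ∑ i ∈ Finset.Icc 1 n, ‖e i τ‖ ≤ 1 :=
    hτ.le.trans (pow_le_one₀ (le_min zero_le_one (half_pos hε).le) (min_le_left _ _))
  have hb := norm_pow_le_of_monic_eq (fun i => e i τ) (F τ) (heq τ) hS1
  have h3 : ‖F τ‖ ^ n < min 1 (ε / 2) ^ n := hb.trans_lt hτ
  have h4 : ‖F τ‖ < min 1 (ε / 2) :=
    lt_of_pow_lt_pow_left₀ n (le_min zero_le_one (half_pos hε).le) h3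
  exact h4.trans_le ((min_le_right _ _).trans (half_le_self hε.le)) |>.trans_le le_rfl

/-! ### Packaging as a cusp form -/

/-- **Converse (CONV3)**. Let `Γ ≤ SL(2, ℤ)` (as subgroups of `GL(2, ℝ)`), let `g`, `h` be
modular forms on `Γ` of weights `kg = k + w` and `w`, with `h ≠ 0`, and let `e i` (`1 ≤ i ≤ n`)
be (the underlying functions of) level one cusp forms of weight `k * i` such that
`g ^ n + ∑ i ∈ Icc 1 n, e i * g ^ (n - i) * h ^ i = 0`. Then there is a cusp form `F` of weight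
`k` on `Γ` with `F * h = g` (and `F ^ n + ∑ i ∈ Icc 1 n, e i * F ^ (n - i) = 0`). -/
theorem exists_cuspForm_of_monic_eq {Γ : Subgroup (GL (Fin 2) ℝ)} (hΓ : Γ ≤ 𝒮ℒ)
    {k w kg : ℤ} (hkg : kg = k + w) (g : ModularForm Γ kg) (h : ModularForm Γ w) (hh0 : h ≠ 0)
    (n : ℕ) (e : ℕ → ℍ → ℂ)
    (he : ∀ i ∈ Finset.Icc 1 n, ∃ E : CuspForm 𝒮ℒ (k * i), ⇑E = e i)
    (heq : ∀ τ, g τ ^ n + ∑ i ∈ Finset.Icc 1 n, e i τ * g τ ^ (n - i) * h τ ^ i = 0) :
    ∃ F : CuspForm Γ k, (∀ τ, F τ * h τ = g τ) ∧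
      ∀ τ, F τ ^ n + ∑ i ∈ Finset.Icc 1 n, e i τ * F τ ^ (n - i) = 0 := by
  have hh0' : (h : ℍ → ℂ) ≠ 0 := fun hc => hh0 (DFunLike.coe_injective hc)
  have heM : ∀ i ∈ Finset.Icc 1 n, MDiff (e i) := by
    intro i hi
    obtain ⟨E, hE⟩ := he i hi
    rw [← hE]
    exact E.holo'
  obtain ⟨hFd, hFh, hFeq⟩ := quotFun_spec (g := g) (h := h) (e := e) g.holo' h.holo' hh0' heM heq
  have heγ : ∀ γ : SL(2, ℤ), ∀ i ∈ Finset.Icc 1 n, (e i) ∣[k * i] γ = e i := by
    intro γ i hi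
    obtain ⟨E, hE⟩ := he i hi
    rw [← hE]
    exact E.slash_action_eq' (Matrix.SpecialLinearGroup.mapGL ℝ γ) ⟨γ, rfl⟩
  have he0 : ∀ i ∈ Finset.Icc 1 n, IsZeroAtImInfty (e i) := by
    intro i hi
    obtain ⟨E, hE⟩ := he i hi
    rw [← hE]
    exact CuspFormClass.zero_at_infty E
  refine ⟨{ toFun := quotFun g h
            slash_action_eq' := ?_
            holo' := hFd
            zero_at_cusps' := ?_ }, hFh, hFeq⟩
  · intro A hA
    obtain ⟨γ, rfl⟩ := hΓ hA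
    exact slash_eq_of_mul_eq hFd h.holo' hh0' hFh hkg γ (g.slash_action_eq' _ hA)
      (h.slash_action_eq' _ hA)
  · intro c hc
    rw [OnePoint.isZeroAt_iff_forall_SL2Z (hc.mono hΓ)]
    intro γ _
    exact isZeroAtImInfty_of_monic_eq he0 (slash_monic_eq γ (heγ γ) hFeq)

end Fermat.Agent.S23.H908
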